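/-
Programme MAZ (S15), brick A3-UNIFORM (row 676), PART 1 (helper88): the abstract lattice statement.

`R` a principal ideal domain, `H` a free `R`-module of finite rank with an `R`-linear involution
`c`, `H⁺ = ker (c - 1)`.  If `rank H ≤ 2 rank H⁺` then for every `a : R` with `R/a` finite and
every additive quotient `π : H ↠ V` with kernel `aH` carrying an additive map `σ` induced by `c`:
    `|V| ≤ |V^σ|²`.
(`H⁺/aH⁺ → H/aH` is injective because `H/H⁺ ≅ (c-1)H ⊂ H` is torsion free, its image is fixed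
by `σ`, and `|L/aL| = |R/a|^rank L` for free modules `L`.)

* `card_quotient_smul_top`  : `|L/aL| = |R/a|^rank L`;
* `fixedPts σ`              : the fixed points of an additive endomorphism;
* `card_le_card_fixedPts_sq`: the main statement, `surjection' form;
* `card_quotient_le_card_fixedPts_sq` : the same for `V = H ⧸ aH`, `σ` = the induced map;
* `finrank_le_two_mul_of_minus_le` : `rank H⁻ ≤ rank H⁺ → rank H ≤ 2 rank H⁺` (`2 ≠ 0` in `R`).
Mathlib only.
-/
import Mathlib

set_option autoImplicit false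
set_option linter.unusedSectionVars false

noncomputable section

namespace Fermat.Agent.MAZ.A3Conj88

open Pointwise

/-! ### Counting `L/aL` for a free module -/

section Count

variable {R : Type*} [CommRing R] [Nontrivial R] {L : Type*} [AddCommGroup L] [Module R L]

theorem mem_smul_top_iff (a : R) (x : L) :
    x ∈ (a • ⊤ : Submodule R L) ↔ ∃ y : L, x = a • y := by
  rw [Submodule.mem_smul_pointwise_iff_exists]
  constructor
  · rintro ⟨y, -, rfl⟩; exact ⟨y, rfl⟩
  · rintro ⟨y, rfl⟩; exact ⟨y, Submodule.mem_top, rfl⟩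

/-- `|L/aL| = |R/a|^rank L` for a free module of finite rank. -/
theorem card_quotient_smul_top [Module.Free R L] [Module.Finite R L] (a : R) :
    Nat.card (L ⧸ (a • ⊤ : Submodule R L)) =
      Nat.card (R ⧸ Ideal.span {a}) ^ Module.finrank R L := by
  classical
  set n := Module.finrank R L with hn
  let b : Module.Basis (Fin n) R L := Module.finBasis R L
  let e : L ≃ₗ[R] (Fin n → R) := b.equivFun
  let p : Fin n → Submodule R R := fun _ => (Ideal.span {a} : Ideal R)
  have hmap : (a • ⊤ : Submodule R L).map (e : L →ₗ[R] (Fin n → R)) = Submodule.pi Set.univ p := by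
    ext x
    rw [Submodule.mem_map, Submodule.mem_pi]
    constructor
    · rintro ⟨y, hy, rfl⟩ i -
      obtain ⟨z, rfl⟩ := (mem_smul_top_iff a y).1 hy
      show e (a • z) i ∈ Ideal.span {a}
      rw [map_smul, Pi.smul_apply, smul_eq_mul]
      exact Ideal.mul_mem_right _ _ (Ideal.mem_span_singleton_self a)
    · intro hx
      have hx' : ∀ i, ∃ z : R, x i = a * z := fun i => by
        have := hx i (Set.mem_univ i)
        exact Ideal.mem_span_singleton'.1 this |>.imp fun z hz => by rw [← hz, mul_comm]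
      choose z hz using hx'
      refine ⟨e.symm (a • z), ?_, ?_⟩
      · rw [map_smul]
        exact (mem_smul_top_iff a _).2 ⟨_, rfl⟩
      · show e (e.symm (a • z)) = x
        rw [LinearEquiv.apply_symm_apply]
        funext i
        rw [Pi.smul_apply, smul_eq_mul, hz i]
  let e1 : (L ⧸ (a • ⊤ : Submodule R L)) ≃ₗ[R] ((Fin n → R) ⧸ Submodule.pi Set.univ p) :=
    Submodule.Quotient.equiv _ _ e hmap
  let e2 : ((Fin n → R) ⧸ Submodule.pi Set.univ p) ≃ₗ[R] (∀ i, R ⧸ p i) := Submodule.quotientPi p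
  rw [Nat.card_congr (e1.trans e2).toEquiv, Nat.card_pi]
  show ∏ _i : Fin n, Nat.card (R ⧸ Ideal.span {a}) = _
  rw [Finset.prod_const, Finset.card_univ, Fintype.card_fin]

end Count

/-! ### Fixed points -/

section Fixed

variable {V : Type*} [AddCommGroup V]

/-- The fixed points of an additive endomorphism. -/
def fixedPts (σ : V →+ V) : AddSubgroup V := (σ - AddMonoidHom.id V).ker

theorem mem_fixedPts (σ : V →+ V) (v : V) : v ∈ fixedPts σ ↔ σ v = v := by
  rw [fixedPts, AddMonoidHom.mem_ker, AddMonoidHom.sub_apply, AddMonoidHom.id_apply, sub_eq_zero]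

end Fixed

/-! ### The main statement -/

section Main

variable {R : Type*} [CommRing R] [IsDomain R] [IsPrincipalIdealRing R]
variable {H : Type*} [AddCommGroup H] [Module R H] [Module.Free R H] [Module.Finite R H]

/-- The `(+1)`-eigenlattice of an endomorphism. -/
def plusPart (c : H →ₗ[R] H) : Submodule R H := LinearMap.ker (c - LinearMap.id)

theorem mem_plusPart (c : H →ₗ[R] H) (x : H) : x ∈ plusPart c ↔ c x = x := by
  rw [plusPart, LinearMap.mem_ker, LinearMap.sub_apply, LinearMap.id_apply, sub_eq_zero]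

/-- The `(-1)`-eigenlattice of an endomorphism. -/
def minusPart (c : H →ₗ[R] H) : Submodule R H := LinearMap.ker (c + LinearMap.id)

theorem mem_minusPart (c : H →ₗ[R] H) (x : H) : x ∈ minusPart c ↔ c x = -x := by
  rw [minusPart, LinearMap.mem_ker, LinearMap.add_apply, LinearMap.id_apply,
    add_eq_zero_iff_eq_neg]

/-- `H⁺ ∩ aH = aH⁺` (torsion-freeness of `H`). -/
theorem plusPart_inter_smul (c : H →ₗ[R] H) {a : R} (ha : a ≠ 0) {x : H}
    (hx : x ∈ plusPart c) (hxa : ∃ y : H, x = a • y) :
    ∃ y : plusPart c, x = a • (y : H) := by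
  obtain ⟨y, rfl⟩ := hxa
  refine ⟨⟨y, ?_⟩, rfl⟩
  rw [mem_plusPart] at hx ⊢
  rw [map_smul] at hx
  exact smul_right_injective H ha hx

/-- **A3, abstract lattice form** (surjection form). -/
theorem card_le_card_fixedPts_sq (c : H →ₗ[R] H)
    (hrank : Module.finrank R H ≤ 2 * Module.finrank R (plusPart c))
    (a : R) (ha : a ≠ 0) [Finite (R ⧸ Ideal.span {a})]
    {V : Type*} [AddCommGroup V] (π : H →+ V) (hπ : Function.Surjective π)
    (hker : ∀ x : H, π x = 0 ↔ ∃ y : H, x = a • y)
    (σ : V →+ V) (hσ : ∀ x : H, σ (π x) = π (c x)) :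
    Nat.card V ≤ Nat.card (fixedPts σ) ^ 2 := by
  classical
  set q := Nat.card (R ⧸ Ideal.span {a}) with hq
  have hqpos : 0 < q := Nat.card_pos
  -- `|V| = q^n`
  have hV : Nat.card V = q ^ Module.finrank R H := by
    have h1 : π.ker.index = Nat.card π.range := AddSubgroup.index_ker π
    have h2 : π.range = ⊤ := AddMonoidHom.range_eq_top.2 hπ
    have h3 : π.ker = (a • ⊤ : Submodule R H).toAddSubgroup := by
      ext x
      rw [AddMonoidHom.mem_ker, hker, Submodule.mem_toAddSubgroup, mem_smul_top_iff]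
    rw [h2, AddSubgroup.card_top, h3] at h1
    rw [← h1, ← card_quotient_smul_top a]
    rfl
  have hVfin : Finite V := by
    apply Nat.finite_of_card_ne_zero
    rw [hV]
    exact (pow_pos hqpos _).ne'
  -- the restriction to `H⁺`
  let π' : plusPart c →+ V := π.comp (plusPart c).subtype.toAddMonoidHom
  have hker' : π'.ker = (a • ⊤ : Submodule R (plusPart c)).toAddSubgroup := by
    ext x
    rw [AddMonoidHom.mem_ker, Submodule.mem_toAddSubgroup, mem_smul_top_iff]
    show π (x : H) = 0 ↔ _
    rw [hker]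
    constructor
    · intro h
      obtain ⟨y, hy⟩ := plusPart_inter_smul c ha x.2 h
      exact ⟨y, Subtype.ext hy⟩
    · rintro ⟨y, rfl⟩
      exact ⟨(y : H), rfl⟩
  have hrange : π'.range ≤ fixedPts σ := by
    rintro v ⟨x, rfl⟩
    rw [mem_fixedPts]
    show σ (π (x : H)) = π (x : H)
    rw [hσ, (mem_plusPart c _).1 x.2]
  have hcard' : Nat.card π'.range = q ^ Module.finrank R (plusPart c) := by
    have h1 : π'.ker.index = Nat.card π'.range := AddSubgroup.index_ker π'
    rw [hker'] at h1
    rw [← h1, ← card_quotient_smul_top a]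
    rfl
  have hle : Nat.card π'.range ≤ Nat.card (fixedPts σ) :=
    AddSubgroup.card_le_of_le hrange
  calc Nat.card V = q ^ Module.finrank R H := hV
    _ ≤ q ^ (2 * Module.finrank R (plusPart c)) := Nat.pow_le_pow_right hqpos hrank
    _ = (q ^ Module.finrank R (plusPart c)) ^ 2 := by rw [mul_comm, pow_mul]
    _ = Nat.card π'.range ^ 2 := by rw [hcard']
    _ ≤ Nat.card (fixedPts σ) ^ 2 := Nat.pow_le_pow_left hle 2

/-- **A3, abstract lattice form** for the quotient `V = H ⧸ aH` with the induced map. -/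
theorem card_quotient_le_card_fixedPts_sq (c : H →ₗ[R] H)
    (hrank : Module.finrank R H ≤ 2 * Module.finrank R (plusPart c))
    (a : R) (ha : a ≠ 0) [Finite (R ⧸ Ideal.span {a})]
    (hle : (a • ⊤ : Submodule R H) ≤ (a • ⊤ : Submodule R H).comap c :=
      fun x hx => by
        obtain ⟨y, rfl⟩ := (mem_smul_top_iff a x).1 hx
        exact (mem_smul_top_iff a _).2 ⟨c y, map_smul c a y⟩) :
    Nat.card (H ⧸ (a • ⊤ : Submodule R H)) ≤
      Nat.card (fixedPts
        ((Submodule.mapQ (a • ⊤ : Submodule R H) (a • ⊤ : Submodule R H) c hle).toAddMonoidHom)) ^ 2 := by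
  refine card_le_card_fixedPts_sq c hrank a ha
    ((a • ⊤ : Submodule R H).mkQ.toAddMonoidHom) (Submodule.mkQ_surjective _) ?_ _ ?_
  · intro x
    show Submodule.Quotient.mk x = 0 ↔ _
    rw [Submodule.Quotient.mk_eq_zero, mem_smul_top_iff]
  · intro x
    rfl

/-! ### The rank hypothesis from `rank H⁻ ≤ rank H⁺` -/

/-- `rank H ≤ rank H⁺ + rank H⁻` for an involution, when `2 ≠ 0` in `R`. -/
theorem finrank_le_plus_add_minus (c : H →ₗ[R] H) (hc : ∀ x, c (c x) = x) (h2 : (2 : R) ≠ 0) :
    Module.finrank R H ≤ Module.finrank R (plusPart c) + Module.finrank R (minusPart c) := by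
  let ψ : H →ₗ[R] (plusPart c × minusPart c) :=
    LinearMap.prod
      (LinearMap.codRestrict (plusPart c) (LinearMap.id + c) fun x => by
        rw [mem_plusPart, LinearMap.add_apply, LinearMap.id_apply, map_add, hc, add_comm])
      (LinearMap.codRestrict (minusPart c) (LinearMap.id - c) fun x => by
        rw [mem_minusPart, LinearMap.sub_apply, LinearMap.id_apply, map_sub, hc, neg_sub])
  have hψ : Function.Injective ψ := by
    rw [← LinearMap.ker_eq_bot, LinearMap.ker_eq_bot']
    intro x hx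
    have h1 : x + c x = 0 := congrArg (fun z : plusPart c × minusPart c => (z.1 : H)) hx
    have h3 : x - c x = 0 := congrArg (fun z : plusPart c × minusPart c => (z.2 : H)) hx
    have h4 : (2 : R) • x = 0 := by
      rw [two_smul]
      calc x + x = (x + c x) + (x - c x) := by abel
        _ = 0 := by rw [h1, h3, add_zero]
    exact (smul_eq_zero.1 h4).resolve_left h2
  have := LinearMap.finrank_le_finrank_of_injective hψ
  rwa [Module.finrank_prod] at this

/-- `rank H⁺ + rank H⁻ ≤ rank H` when `2 ≠ 0` in `R`. -/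
theorem plus_add_minus_le_finrank (c : H →ₗ[R] H) (h2 : (2 : R) ≠ 0) :
    Module.finrank R (plusPart c) + Module.finrank R (minusPart c) ≤ Module.finrank R H := by
  let φ : (plusPart c × minusPart c) →ₗ[R] H :=
    LinearMap.coprod (plusPart c).subtype (minusPart c).subtype
  have hφ : Function.Injective φ := by
    rw [← LinearMap.ker_eq_bot, LinearMap.ker_eq_bot']
    rintro ⟨x, y⟩ hxy
    have h0 : (x : H) + (y : H) = 0 := hxy
    have hx := (mem_plusPart c _).1 x.2
    have hy := (mem_minusPart c _).1 y.2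
    have h1 : (x : H) - (y : H) = 0 := by
      have := congrArg c h0
      rwa [map_add, hx, hy, map_zero, ← sub_eq_add_neg] at this
    have h4 : (2 : R) • (x : H) = 0 := by
      rw [two_smul]
      calc (x : H) + x = (x + y) + (x - y) := by abel
        _ = 0 := by rw [h0, h1, add_zero]
    have hx0 : (x : H) = 0 := (smul_eq_zero.1 h4).resolve_left h2
    have hy0 : (y : H) = 0 := by rw [hx0, zero_add] at h0; exact h0
    exact Prod.ext (Subtype.ext hx0) (Subtype.ext hy0)
  have := LinearMap.finrank_le_finrank_of_injective hφ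
  rwa [Module.finrank_prod] at this

theorem finrank_eq_plus_add_minus (c : H →ₗ[R] H) (hc : ∀ x, c (c x) = x) (h2 : (2 : R) ≠ 0) :
    Module.finrank R H = Module.finrank R (plusPart c) + Module.finrank R (minusPart c) :=
  le_antisymm (finrank_le_plus_add_minus c hc h2) (plus_add_minus_le_finrank c h2)

/-- The rank hypothesis of `card_le_card_fixedPts_sq` from `rank H⁻ ≤ rank H⁺`. -/
theorem finrank_le_two_mul_of_minus_le (c : H →ₗ[R] H) (hc : ∀ x, c (c x) = x)
    (h2 : (2 : R) ≠ 0) (h : Module.finrank R (minusPart c) ≤ Module.finrank R (plusPart c)) :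
    Module.finrank R H ≤ 2 * Module.finrank R (plusPart c) := by
  have := finrank_le_plus_add_minus c hc h2
  omega

end Main

/-! ### The case `R = ℤ_[r]`, `a = r^k` -/

section Padic

variable (r : ℕ) [hr : Fact r.Prime]

theorem toZModPow_surjective (k : ℕ) :
    Function.Surjective (PadicInt.toZModPow k : ℤ_[r] →+* ZMod (r ^ k)) := by
  have : NeZero (r ^ k) := ⟨pow_ne_zero k hr.out.ne_zero⟩
  intro z
  exact ⟨(z.val : ℤ_[r]), by rw [map_natCast, ZMod.natCast_zmod_val]⟩

/-- `ℤ_[r] / r^k ≃ ℤ / r^k`. -/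
def padicQuotEquiv (k : ℕ) : (ℤ_[r] ⧸ Ideal.span {(r : ℤ_[r]) ^ k}) ≃+* ZMod (r ^ k) :=
  (Ideal.quotEquivOfEq (PadicInt.ker_toZModPow k).symm).trans
    (RingHom.quotientKerEquivOfSurjective (toZModPow_surjective r k))

instance finite_padicQuot (k : ℕ) : Finite (ℤ_[r] ⧸ Ideal.span {(r : ℤ_[r]) ^ k}) := by
  have : NeZero (r ^ k) := ⟨pow_ne_zero k hr.out.ne_zero⟩
  exact Finite.of_equiv _ (padicQuotEquiv r k).symm.toEquiv

theorem card_padicQuot (k : ℕ) : Nat.card (ℤ_[r] ⧸ Ideal.span {(r : ℤ_[r]) ^ k}) = r ^ k := by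
  rw [Nat.card_congr (padicQuotEquiv r k).toEquiv, Nat.card_zmod]

theorem padic_pow_ne_zero (k : ℕ) : ((r : ℤ_[r]) ^ k) ≠ 0 :=
  pow_ne_zero k (by exact_mod_cast hr.out.ne_zero)

variable {r}
variable {H : Type*} [AddCommGroup H] [Module ℤ_[r] H] [Module.Free ℤ_[r] H]
  [Module.Finite ℤ_[r] H]

/-- **A3 for a `ℤ_r`-lattice**: `V = H/r^k H` with `σ` induced by `c`. -/
theorem card_le_card_fixedPts_sq_padic (c : H →ₗ[ℤ_[r]] H)
    (hrank : Module.finrank ℤ_[r] H ≤ 2 * Module.finrank ℤ_[r] (plusPart c)) (k : ℕ)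
    {V : Type*} [AddCommGroup V] (π : H →+ V) (hπ : Function.Surjective π)
    (hker : ∀ x : H, π x = 0 ↔ ∃ y : H, x = ((r : ℤ_[r]) ^ k) • y)
    (σ : V →+ V) (hσ : ∀ x : H, σ (π x) = π (c x)) :
    Nat.card V ≤ Nat.card (fixedPts σ) ^ 2 :=
  card_le_card_fixedPts_sq c hrank _ (padic_pow_ne_zero r k) π hπ hker σ hσ

/-- `|H/r^k H| = r^(k * rank H)`. -/
theorem card_quotient_padic (k : ℕ) :
    Nat.card (H ⧸ (((r : ℤ_[r]) ^ k) • ⊤ : Submodule ℤ_[r] H)) =
      r ^ (k * Module.finrank ℤ_[r] H) := by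
  rw [card_quotient_smul_top, card_padicQuot, pow_mul]

end Padic

end Fermat.Agent.MAZ.A3Conj88
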