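/-
Programme MAZ (S15), brick A3-UNIFORM (row 676), PART 1 (helper88): the group-action form of the
abstract lattice statement, in the vocabulary of `SelCoh42` (`Inv (Subgroup.zpowers g) V`).
-/
import Mathlib
import Fermat.Agent.MAZ.A3Conj88.Lattice
import Fermat.Agent.MAZ.SelCoh42.LES

set_option autoImplicit false
set_option linter.unusedSectionVars false

noncomputable section

namespace Fermat.Agent.MAZ.A3Conj88

open Fermat.Agent.MAZ.SelCoh42

section Action

universe u v

variable {Γ : Type v} [Group Γ] {V : Type u} [AddCommGroup V] [DistribMulAction Γ V]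

/-- invariants under the cyclic subgroup generated by `g` = fixed points of `g`. -/
theorem mem_Inv_zpowers_iff (g : Γ) (x : V) :
    x ∈ Inv (Subgroup.zpowers g) V ↔ g • x = x := by
  constructor
  · intro h
    exact h g (Subgroup.mem_zpowers g)
  · intro h s hs
    have hinv : g⁻¹ • x = x := by
      conv_lhs => rw [← h]
      rw [inv_smul_smul]
    have hall : ∀ n : ℤ, g ^ n • x = x := by
      intro n
      induction n using Int.induction_on with
      | zero => rw [zpow_zero, one_smul]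
      | succ n ih => rw [zpow_add_one, mul_smul, h, ih]
      | pred n ih => rw [zpow_sub_one, mul_smul, hinv, ih]
    obtain ⟨n, rfl⟩ := Subgroup.mem_zpowers_iff.1 hs
    exact hall n

theorem Inv_zpowers_eq_fixedPts (g : Γ) :
    Inv (Subgroup.zpowers g) V = fixedPts (DistribSMul.toAddMonoidHom V g) := by
  ext x
  rw [mem_Inv_zpowers_iff, mem_fixedPts]
  rfl

variable {R : Type*} [CommRing R] [IsDomain R] [IsPrincipalIdealRing R]
variable {H : Type*} [AddCommGroup H] [Module R H] [Module.Free R H] [Module.Finite R H]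

/-- **A3, abstract lattice form, group-action version**: `V` a `Γ`-module, `g : Γ` acting on
`V ≅ H/aH` through the lattice endomorphism `c` with `rank H ≤ 2 rank H⁺`:
`|V| ≤ |V^⟨g⟩|²`. -/
theorem card_le_card_Inv_zpowers_sq (c : H →ₗ[R] H)
    (hrank : Module.finrank R H ≤ 2 * Module.finrank R (plusPart c))
    (a : R) (ha : a ≠ 0) [Finite (R ⧸ Ideal.span {a})]
    (π : H →+ V) (hπ : Function.Surjective π)
    (hker : ∀ x : H, π x = 0 ↔ ∃ y : H, x = a • y)
    (g : Γ) (hg : ∀ x : H, g • π x = π (c x)) :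
    Nat.card V ≤ Nat.card (Inv (Subgroup.zpowers g) V) ^ 2 := by
  rw [Inv_zpowers_eq_fixedPts]
  exact card_le_card_fixedPts_sq c hrank a ha π hπ hker _ hg

/-- The same with the rank hypothesis in the form `rank H⁻ ≤ rank H⁺` (`c` an involution,
`2 ≠ 0` in `R`). -/
theorem card_le_card_Inv_zpowers_sq' (c : H →ₗ[R] H) (hc : ∀ x, c (c x) = x)
    (h2 : (2 : R) ≠ 0)
    (hrank : Module.finrank R (minusPart c) ≤ Module.finrank R (plusPart c))
    (a : R) (ha : a ≠ 0) [Finite (R ⧸ Ideal.span {a})]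
    (π : H →+ V) (hπ : Function.Surjective π)
    (hker : ∀ x : H, π x = 0 ↔ ∃ y : H, x = a • y)
    (g : Γ) (hg : ∀ x : H, g • π x = π (c x)) :
    Nat.card V ≤ Nat.card (Inv (Subgroup.zpowers g) V) ^ 2 :=
  card_le_card_Inv_zpowers_sq c (finrank_le_two_mul_of_minus_le c hc h2 hrank) a ha π hπ hker g hg

open Pointwise in
/-- `c` preserves `aH`. -/
theorem smul_top_le_comap (c : H →ₗ[R] H) (a : R) :
    (a • ⊤ : Submodule R H) ≤ (a • ⊤ : Submodule R H).comap c := fun x hx => by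
  obtain ⟨y, rfl⟩ := (mem_smul_top_iff a x).1 hx
  exact (mem_smul_top_iff a _).2 ⟨c y, map_smul c a y⟩

open Pointwise in
/-- **Transfer form**: `V ≃+ H/aH` intertwining the action of `g` with the map induced by `c`. -/
theorem card_le_card_Inv_zpowers_sq_of_equiv (c : H →ₗ[R] H)
    (hrank : Module.finrank R H ≤ 2 * Module.finrank R (plusPart c))
    (a : R) (ha : a ≠ 0) [Finite (R ⧸ Ideal.span {a})]
    (e : V ≃+ (H ⧸ (a • ⊤ : Submodule R H))) (g : Γ)
    (hg : ∀ v : V, e (g • v) =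
      Submodule.mapQ (a • ⊤ : Submodule R H) (a • ⊤ : Submodule R H) c (smul_top_le_comap c a) (e v)) :
    Nat.card V ≤ Nat.card (Inv (Subgroup.zpowers g) V) ^ 2 := by
  refine card_le_card_Inv_zpowers_sq c hrank a ha
    (e.symm.toAddMonoidHom.comp (a • ⊤ : Submodule R H).mkQ.toAddMonoidHom) ?_ ?_ g ?_
  · exact e.symm.surjective.comp (Submodule.mkQ_surjective _)
  · intro x
    show e.symm (Submodule.Quotient.mk x) = 0 ↔ _
    rw [AddEquiv.map_eq_zero_iff, Submodule.Quotient.mk_eq_zero, mem_smul_top_iff]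
  · intro x
    show g • e.symm (Submodule.Quotient.mk x) = e.symm (Submodule.Quotient.mk (c x))
    apply e.injective
    rw [hg, AddEquiv.apply_symm_apply, AddEquiv.apply_symm_apply]
    rfl

end Action

section PadicAction

universe u v

variable {Γ : Type v} [Group Γ] {V : Type u} [AddCommGroup V] [DistribMulAction Γ V]
variable {r : ℕ} [hr : Fact r.Prime]
variable {H : Type*} [AddCommGroup H] [Module ℤ_[r] H] [Module.Free ℤ_[r] H]
  [Module.Finite ℤ_[r] H]

/-- **A3 for a `ℤ_r`-lattice, group-action version** (all primes `r`, `2` included). -/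
theorem card_le_card_Inv_zpowers_sq_padic (c : H →ₗ[ℤ_[r]] H)
    (hrank : Module.finrank ℤ_[r] H ≤ 2 * Module.finrank ℤ_[r] (plusPart c)) (k : ℕ)
    (π : H →+ V) (hπ : Function.Surjective π)
    (hker : ∀ x : H, π x = 0 ↔ ∃ y : H, x = ((r : ℤ_[r]) ^ k) • y)
    (g : Γ) (hg : ∀ x : H, g • π x = π (c x)) :
    Nat.card V ≤ Nat.card (Inv (Subgroup.zpowers g) V) ^ 2 :=
  card_le_card_Inv_zpowers_sq c hrank _ (padic_pow_ne_zero r k) π hπ hker g hg

/-- `2 ≠ 0` in `ℤ_[r]` (every `r`). -/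
theorem padic_two_ne_zero : (2 : ℤ_[r]) ≠ 0 := by
  have : ((2 : ℕ) : ℤ_[r]) ≠ 0 := by exact_mod_cast (two_ne_zero : (2 : ℕ) ≠ 0)
  exact_mod_cast this

/-- The same with `rank H⁻ ≤ rank H⁺`. -/
theorem card_le_card_Inv_zpowers_sq_padic' (c : H →ₗ[ℤ_[r]] H) (hc : ∀ x, c (c x) = x)
    (hrank : Module.finrank ℤ_[r] (minusPart c) ≤ Module.finrank ℤ_[r] (plusPart c)) (k : ℕ)
    (π : H →+ V) (hπ : Function.Surjective π)
    (hker : ∀ x : H, π x = 0 ↔ ∃ y : H, x = ((r : ℤ_[r]) ^ k) • y)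
    (g : Γ) (hg : ∀ x : H, g • π x = π (c x)) :
    Nat.card V ≤ Nat.card (Inv (Subgroup.zpowers g) V) ^ 2 :=
  card_le_card_Inv_zpowers_sq_padic c
    (finrank_le_two_mul_of_minus_le c hc padic_two_ne_zero hrank) k π hπ hker g hg

open Pointwise in
/-- **Transfer form for a `ℤ_r`-lattice**: `V ≃+ H/r^k H` intertwining `g` and `c`. -/
theorem card_le_card_Inv_zpowers_sq_padic_of_equiv (c : H →ₗ[ℤ_[r]] H)
    (hrank : Module.finrank ℤ_[r] H ≤ 2 * Module.finrank ℤ_[r] (plusPart c)) (k : ℕ)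
    (e : V ≃+ (H ⧸ (((r : ℤ_[r]) ^ k) • ⊤ : Submodule ℤ_[r] H))) (g : Γ)
    (hg : ∀ v : V, e (g • v) =
      Submodule.mapQ _ _ c (smul_top_le_comap c ((r : ℤ_[r]) ^ k)) (e v)) :
    Nat.card V ≤ Nat.card (Inv (Subgroup.zpowers g) V) ^ 2 :=
  card_le_card_Inv_zpowers_sq_of_equiv c hrank _ (padic_pow_ne_zero r k) e g hg

end PadicAction

end Fermat.Agent.MAZ.A3Conj88
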